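/-
DS programme (S48), brick B7, analytic core (helper54).

`sum_mul_density_le_one`: if a nonnegative bounded weight `w` on primes satisfies the sharp Rankin
bound `Σ_p w(p) p^{-s} ≤ log(1/(s-1)) + C`, and takes the constant value `v` on sets `X v` of primes
of lower Dirichlet density at least `d v` (finitely many `v`), then `Σ_v v * d v ≤ 1`.
-/
import Mathlib
import Fermat.Agent.DS.Iface
import Fermat.Agent.DS.Rankin.IfaceAdapter

set_option autoImplicit false

open Filter Topology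

namespace Fermat.Agent.DS.Irred.Density

open Fermat.Agent.DS.Iface Fermat.Agent.DS.Rankin

/-- the weight `p ↦ p^{-s}` -/
noncomputable def gw (s : ℝ) (n : ℕ) : ℝ := (n : ℝ) ^ (-s)

lemma gw_nonneg (s : ℝ) (n : ℕ) : 0 ≤ gw s n := by
  unfold gw; positivity

lemma gw_summable {s : ℝ} (hs : 1 < s) : Summable (gw s) := by
  unfold gw
  exact Real.summable_nat_rpow.mpr (by linarith)

lemma gw_le_one {s : ℝ} (hs : 1 < s) (n : ℕ) : gw s n ≤ 1 := by
  unfold gw
  rcases Nat.eq_zero_or_pos n with h | h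
  · subst h
    rw [Nat.cast_zero, Real.zero_rpow (by linarith)]
    exact zero_le_one
  · have h1 : (1 : ℝ) ≤ n := by exact_mod_cast h
    exact Real.rpow_le_one_of_one_le_of_nonpos h1 (by linarith)

lemma indicator_summable {s : ℝ} (hs : 1 < s) (Y : Set ℕ) :
    Summable (Set.indicator Y (gw s)) :=
  (gw_summable hs).indicator Y

/-- `primeSum` in terms of `gw`. -/
lemma primeSum_eq (X : Set ℕ) (s : ℝ) :
    primeSum X s = ∑' n : ℕ, Set.indicator {p : ℕ | p.Prime ∧ p ∈ X} (gw s) n := rfl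

/-- Removing a finite set of primes costs at most its cardinality. -/
lemma primeSum_le_add_card {s : ℝ} (hs : 1 < s) (X : Set ℕ) (S : Finset ℕ) :
    primeSum X s ≤
      (∑' n : ℕ, Set.indicator {p : ℕ | p.Prime ∧ p ∉ S ∧ p ∈ X} (gw s) n) + S.card := by
  classical
  rw [primeSum_eq]
  have hS : (∑' n : ℕ, Set.indicator (↑S : Set ℕ) (gw s) n) ≤ S.card := by
    have h1 : (∑' n : ℕ, Set.indicator (↑S : Set ℕ) (gw s) n) = ∑ n ∈ S, gw s n := by
      rw [tsum_eq_sum (s := S)]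
      · refine Finset.sum_congr rfl fun n hn => ?_
        rw [Set.indicator_of_mem (Finset.mem_coe.mpr hn)]
      · intro n hn
        rw [Set.indicator_of_notMem (by simpa using hn)]
    rw [h1]
    calc ∑ n ∈ S, gw s n ≤ ∑ _n ∈ S, (1 : ℝ) := Finset.sum_le_sum fun n _ => gw_le_one hs n
      _ = S.card := by simp
  have h2 : (∑' n : ℕ, Set.indicator {p : ℕ | p.Prime ∧ p ∈ X} (gw s) n) ≤
      ∑' n : ℕ, (Set.indicator {p : ℕ | p.Prime ∧ p ∉ S ∧ p ∈ X} (gw s) n +
        Set.indicator (↑S : Set ℕ) (gw s) n) := by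
    refine (indicator_summable hs _).tsum_le_tsum (fun n => ?_)
      ((indicator_summable hs _).add (indicator_summable hs _))
    by_cases hn : n ∈ {p : ℕ | p.Prime ∧ p ∈ X}
    · rw [Set.indicator_of_mem hn]
      by_cases hnS : n ∈ S
      · rw [Set.indicator_of_mem (Finset.mem_coe.mpr hnS)]
        have := Set.indicator_nonneg (s := {p : ℕ | p.Prime ∧ p ∉ S ∧ p ∈ X})
          (f := gw s) (fun p _ => gw_nonneg s p) n
        linarith
      · have hmem : n ∈ {p : ℕ | p.Prime ∧ p ∉ S ∧ p ∈ X} := ⟨hn.1, hnS, hn.2⟩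
        rw [Set.indicator_of_mem hmem]
        have := Set.indicator_nonneg (s := (↑S : Set ℕ)) (f := gw s) (fun p _ => gw_nonneg s p) n
        linarith
    · rw [Set.indicator_of_notMem hn]
      have h3 := Set.indicator_nonneg (s := {p : ℕ | p.Prime ∧ p ∉ S ∧ p ∈ X})
        (f := gw s) (fun p _ => gw_nonneg s p) n
      have h4 := Set.indicator_nonneg (s := (↑S : Set ℕ)) (f := gw s) (fun p _ => gw_nonneg s p) n
      linarith
  rw [(indicator_summable hs _).tsum_add (indicator_summable hs _)] at h2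
  linarith

/-- Weighted sum over pairwise "value-disjoint" sets is bounded by the weighted prime sum. -/
lemma weighted_sum_le {s : ℝ} (hs : 1 < s) (V : Finset ℝ)
    (X : ℝ → Set ℕ) (S : Finset ℕ) (w : ℕ → ℝ) (W : ℝ) (hw0 : ∀ p, 0 ≤ w p) (hwW : ∀ p, w p ≤ W)
    (hval : ∀ p : ℕ, p.Prime → p ∉ S → ∀ v ∈ V, p ∈ X v → w p = v) :
    ∑ v ∈ V, v * (∑' n : ℕ, Set.indicator {p : ℕ | p.Prime ∧ p ∉ S ∧ p ∈ X v} (gw s) n) ≤
      ∑' n : ℕ, Set.indicator {p : ℕ | p.Prime ∧ p ∉ S} (fun p => w p * gw s p) n := by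
  classical
  have hsumR : Summable (Set.indicator {p : ℕ | p.Prime ∧ p ∉ S} (fun p => w p * gw s p)) := by
    refine Summable.indicator ?_ _
    refine Summable.of_nonneg_of_le (fun p => mul_nonneg (hw0 p) (gw_nonneg s p))
      (fun p => mul_le_mul_of_nonneg_right (hwW p) (gw_nonneg s p)) ?_
    exact (gw_summable hs).mul_left W
  have hsumL : ∀ v ∈ V, Summable
      (fun n => v * Set.indicator {p : ℕ | p.Prime ∧ p ∉ S ∧ p ∈ X v} (gw s) n) :=
    fun v _ => (indicator_summable hs _).mul_left v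
  have h1 : ∑ v ∈ V, v * (∑' n : ℕ, Set.indicator {p : ℕ | p.Prime ∧ p ∉ S ∧ p ∈ X v} (gw s) n) =
      ∑' n : ℕ, ∑ v ∈ V, v * Set.indicator {p : ℕ | p.Prime ∧ p ∉ S ∧ p ∈ X v} (gw s) n := by
    rw [Summable.tsum_finsetSum hsumL]
    refine Finset.sum_congr rfl fun v _ => ?_
    rw [tsum_mul_left]
  rw [h1]
  refine (summable_sum hsumL).tsum_le_tsum (fun n => ?_) hsumR
  by_cases hn : n.Prime ∧ n ∉ S
  · rw [Set.indicator_of_mem (show n ∈ {p : ℕ | p.Prime ∧ p ∉ S} from hn)]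
    -- at most the term `v = w n` survives
    have hterm : ∀ v ∈ V, v * Set.indicator {p : ℕ | p.Prime ∧ p ∉ S ∧ p ∈ X v} (gw s) n =
        if v = w n then v * Set.indicator {p : ℕ | p.Prime ∧ p ∉ S ∧ p ∈ X v} (gw s) n else 0 := by
      intro v hv
      by_cases hmem : n ∈ X v
      · have := hval n hn.1 hn.2 v hv hmem
        rw [if_pos this.symm]
      · rw [Set.indicator_of_notMem (fun h => hmem h.2.2), mul_zero]
        split_ifs <;> rfl
    rw [Finset.sum_congr rfl hterm, Finset.sum_ite_eq' V (w n)]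
    split_ifs with hmem
    · refine mul_le_mul_of_nonneg_left ?_ (hw0 n)
      exact Set.indicator_le_self' (fun _ _ => gw_nonneg s n) n
    · exact mul_nonneg (hw0 n) (gw_nonneg s n)
  · rw [Set.indicator_of_notMem (show n ∉ {p : ℕ | p.Prime ∧ p ∉ S} from hn)]
    refine le_of_eq (Finset.sum_eq_zero fun v _ => ?_)
    rw [Set.indicator_of_notMem (fun h => hn ⟨h.1, h.2.1⟩), mul_zero]

/-- **Analytic core of B7.** -/
theorem sum_mul_density_le_one (V : Finset ℝ) (hV : ∀ v ∈ V, 0 ≤ v)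
    (X : ℝ → Set ℕ) (d : ℝ → ℝ) (hdens : ∀ v ∈ V, LowerDensityGE (X v) (d v))
    (S : Finset ℕ) (w : ℕ → ℝ) (W : ℝ) (hw0 : ∀ p, 0 ≤ w p) (hwW : ∀ p, w p ≤ W)
    (hval : ∀ p : ℕ, p.Prime → p ∉ S → ∀ v ∈ V, p ∈ X v → w p = v)
    (hrankin : ∃ C : ℝ, ∀ s : ℝ, 1 < s → s ≤ 2 →
      (∑' n : ℕ, Set.indicator {p : ℕ | p.Prime ∧ p ∉ S} (fun p => w p * gw s p) n) ≤
        Real.log (1 / (s - 1)) + C) :
    ∑ v ∈ V, v * d v ≤ 1 := by
  classical
  by_contra hcon
  rw [not_le] at hcon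
  obtain ⟨C, hC⟩ := hrankin
  set Sv : ℝ := ∑ v ∈ V, v with hSv
  have hSv0 : 0 ≤ Sv := Finset.sum_nonneg hV
  set κ : ℝ := (∑ v ∈ V, v * d v - 1) / 2 with hκ
  have hκpos : 0 < κ := by rw [hκ]; linarith
  -- choose `δ`
  set δ : ℝ := κ / (Sv + 1) with hδ
  have hδpos : 0 < δ := by rw [hδ]; positivity
  have hδS : δ * Sv ≤ κ := by
    rw [hδ, div_mul_eq_mul_div, div_le_iff₀ (by linarith)]
    nlinarith
  -- eventually all the lower bounds hold
  have hev1 : ∀ᶠ s in 𝓝[>] (1 : ℝ), ∀ v ∈ V,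
      (d v - δ) * Real.log (1 / (s - 1)) ≤ primeSum (X v) s := by
    rw [Filter.eventually_all_finset]
    intro v hv
    exact hdens v hv δ hδpos
  have hev2 : ∀ᶠ s in 𝓝[>] (1 : ℝ), 1 < s ∧ s ≤ 2 := by
    have h1 : ∀ᶠ s in 𝓝[>] (1 : ℝ), 1 < s := eventually_mem_nhdsWithin
    have h2 : ∀ᶠ s in 𝓝[>] (1 : ℝ), s ≤ 2 :=
      mem_nhdsWithin_of_mem_nhds (Iic_mem_nhds (by norm_num))
    exact h1.and h2
  have hev3 : ∀ᶠ s in 𝓝[>] (1 : ℝ),
      (C + S.card * Sv) / κ + 1 ≤ Real.log (1 / (s - 1)) :=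
    IfaceAdapter.tendsto_log_one_div_sub_one.eventually_ge_atTop _
  obtain ⟨s, hs1, ⟨hs, hs2⟩, hs3⟩ := (hev1.and (hev2.and hev3)).exists
  set L : ℝ := Real.log (1 / (s - 1)) with hL
  -- upper bound
  have hup : ∑ v ∈ V, v * (primeSum (X v) s - S.card) ≤ L + C := by
    calc ∑ v ∈ V, v * (primeSum (X v) s - S.card)
        ≤ ∑ v ∈ V, v * (∑' n : ℕ,
            Set.indicator {p : ℕ | p.Prime ∧ p ∉ S ∧ p ∈ X v} (gw s) n) := by
          refine Finset.sum_le_sum fun v hv => mul_le_mul_of_nonneg_left ?_ (hV v hv)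
          have := primeSum_le_add_card hs (X v) S
          linarith
      _ ≤ _ := weighted_sum_le hs V X S w W hw0 hwW hval
      _ ≤ L + C := hC s hs hs2
  -- lower bound
  have hlow : ∑ v ∈ V, v * ((d v - δ) * L - S.card) ≤
      ∑ v ∈ V, v * (primeSum (X v) s - S.card) := by
    refine Finset.sum_le_sum fun v hv => mul_le_mul_of_nonneg_left ?_ (hV v hv)
    have := hs1 v hv
    linarith
  have hexp : ∑ v ∈ V, v * ((d v - δ) * L - S.card) =
      (∑ v ∈ V, v * d v - δ * Sv) * L - S.card * Sv := by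
    rw [hSv, Finset.mul_sum, Finset.mul_sum, sub_mul, Finset.sum_mul, Finset.sum_mul,
      ← Finset.sum_sub_distrib, ← Finset.sum_sub_distrib]
    refine Finset.sum_congr rfl fun v _ => ?_
    ring
  have hmain : (∑ v ∈ V, v * d v - δ * Sv - 1) * L ≤ C + S.card * Sv := by
    have := hlow.trans hup
    rw [hexp] at this
    linarith
  have hcoef : κ ≤ ∑ v ∈ V, v * d v - δ * Sv - 1 := by
    have : ∑ v ∈ V, v * d v - 1 = 2 * κ := by rw [hκ]; ring
    linarith
  have hLpos : 0 ≤ L := by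
    have : 0 ≤ (C + S.card * Sv) / κ + 1 ∨ (C + S.card * Sv) / κ + 1 < 0 := le_or_gt _ _
    rcases this with h | h
    · exact h.trans hs3
    · rw [hL]
      exact Density.log_one_div_nonneg hs hs2
  have h5 : κ * L ≤ C + S.card * Sv := (mul_le_mul_of_nonneg_right hcoef hLpos).trans hmain
  have h6 : L ≤ (C + S.card * Sv) / κ := by
    rw [le_div_iff₀ hκpos]
    linarith
  linarith

end Fermat.Agent.DS.Irred.Density
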