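/-
DS programme (S48), brick B7, algebraic part (helper54).

* `isIrreducible_of_no_common_eigenvector`: a 2-dimensional matrix representation without a common
  eigenvector is irreducible (in the sense of the frozen statement S48).
* `trace_eq_of_eigenvector`: `M v = c v`, `v ≠ 0` gives `c * c - tr M * c + det M = 0`.
* `eigenChar`: the character by which a group acts on a common eigenvector.
-/
import Mathlib
import Fermat.Prelude.Def_Deformations_MatrixRepresentation

set_option autoImplicit false

open Matrix

namespace Fermat.Agent.DS.Irred.Alg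

/-- An eigenvalue of a `2 × 2` matrix satisfies the characteristic equation. -/
theorem char_eq_of_eigenvector {k : Type*} [Field k] (M : Matrix (Fin 2) (Fin 2) k)
    (v : Fin 2 → k) (hv : v ≠ 0) (c : k) (h : M *ᵥ v = c • v) :
    c * c - M.trace * c + M.det = 0 := by
  have h0 : (M - c • (1 : Matrix (Fin 2) (Fin 2) k)) *ᵥ v = 0 := by
    rw [Matrix.sub_mulVec, h, Matrix.smul_mulVec, Matrix.one_mulVec, sub_self]
  have hdet : (M - c • (1 : Matrix (Fin 2) (Fin 2) k)).det = 0 :=
    Matrix.exists_mulVec_eq_zero_iff.mp ⟨v, hv, h0⟩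
  rw [Matrix.det_fin_two] at hdet
  simp only [Matrix.sub_apply, Matrix.smul_apply, Matrix.one_apply_eq, smul_eq_mul, mul_one,
    ne_eq, Fin.zero_eq_one_iff, not_false_eq_true, Matrix.one_apply_ne,
    mul_zero, sub_zero, Fin.one_eq_zero_iff, OfNat.ofNat_ne_one] at hdet
  rw [Matrix.trace_fin_two, Matrix.det_fin_two]
  linear_combination hdet

variable {G : Type} [Group G] {k : Type} [Field k]

/-- A 2-dimensional matrix representation without a common eigenvector is irreducible. -/
theorem isIrreducible_of_no_common_eigenvector (ρ : G →* GL (Fin 2) k)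
    (h : ¬ ∃ v : Fin 2 → k, v ≠ 0 ∧ ∀ g : G, ∃ c : k,
      ((ρ g : GL (Fin 2) k) : Matrix (Fin 2) (Fin 2) k) *ᵥ v = c • v) :
    (Deformation.matrixRepresentation ρ).IsIrreducible := by
  classical
  have hbot_top : (⊥ : Submodule k (Fin 2 → k)) ≠ ⊤ := by
    intro heq
    have : (fun _ : Fin 2 => (1 : k)) ∈ (⊥ : Submodule k (Fin 2 → k)) := by
      rw [heq]; exact Submodule.mem_top
    rw [Submodule.mem_bot] at this
    have := congrFun this 0
    simp at this
  have hnt : Nontrivial (Subrepresentation (Deformation.matrixRepresentation ρ)) := by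
    refine ⟨⟨⊥, ⊤, ?_⟩⟩
    intro heq
    apply hbot_top
    have := congrArg Subrepresentation.toSubmodule heq
    exact this
  refine { toNontrivial := hnt, eq_bot_or_eq_top := fun W => ?_ }
  · -- dimension of `W`
    have hle : Module.finrank k W.toSubmodule ≤ 2 := by
      have := Submodule.finrank_le W.toSubmodule
      simpa using this
    have hcases : Module.finrank k W.toSubmodule = 0 ∨ Module.finrank k W.toSubmodule = 1 ∨
        Module.finrank k W.toSubmodule = 2 := by omega
    rcases hcases with h0 | h1 | h2
    · left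
      apply Subrepresentation.toSubmodule_injective
      exact Submodule.finrank_eq_zero.mp h0
    · exfalso
      apply h
      obtain ⟨v, hv0, hv⟩ := finrank_eq_one_iff'.mp h1
      refine ⟨(v : Fin 2 → k), fun hv' => hv0 (Subtype.ext hv'), fun g => ?_⟩
      have hmem : Deformation.matrixRepresentation ρ g (v : Fin 2 → k) ∈ W.toSubmodule :=
        W.apply_mem_toSubmodule g v.2
      obtain ⟨c, hc⟩ := hv ⟨_, hmem⟩
      refine ⟨c, ?_⟩
      have h3 := congrArg Subtype.val hc
      have h4 : Deformation.matrixRepresentation ρ g (v : Fin 2 → k) =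
          ((ρ g : GL (Fin 2) k) : Matrix (Fin 2) (Fin 2) k) *ᵥ (v : Fin 2 → k) := by
        rw [Deformation.matrixRepresentation_apply, Matrix.mulVecLin_apply]
      rw [← h4]
      exact h3.symm
    · right
      apply Subrepresentation.toSubmodule_injective
      apply Submodule.eq_top_of_finrank_eq
      rw [h2]
      simp

/-- The scalar by which `g` acts on a common eigenvector. -/
theorem exists_eigenChar (ρ : G →* GL (Fin 2) k) (v : Fin 2 → k) (hv : v ≠ 0)
    (h : ∀ g : G, ∃ c : k, ((ρ g : GL (Fin 2) k) : Matrix (Fin 2) (Fin 2) k) *ᵥ v = c • v) :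
    ∃ χ : G →* kˣ, ∀ g : G,
      ((ρ g : GL (Fin 2) k) : Matrix (Fin 2) (Fin 2) k) *ᵥ v = (χ g : k) • v := by
  classical
  choose c hc using h
  have huniq : ∀ a b : k, a • v = b • v → a = b := by
    intro a b hab
    have : (a - b) • v = 0 := by rw [sub_smul, hab, sub_self]
    rcases smul_eq_zero.mp this with h1 | h1
    · exact sub_eq_zero.mp h1
    · exact absurd h1 hv
  let χ0 : G →* k :=
    { toFun := c
      map_one' := by
        apply huniq
        rw [← hc 1, map_one, Units.val_one, Matrix.one_mulVec, one_smul]
      map_mul' := fun g g' => by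
        apply huniq
        rw [← hc (g * g'), map_mul, Units.val_mul, ← Matrix.mulVec_mulVec, hc g',
          Matrix.mulVec_smul, hc g, smul_smul, mul_comm] }
  refine ⟨χ0.toHomUnits, fun g => ?_⟩
  rw [MonoidHom.coe_toHomUnits]
  exact hc g

end Fermat.Agent.DS.Irred.Alg
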