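/-
DS programme (S48), brick B7 (helper54): IRREDUCIBILITY.

A finite-level representation `ρ : G_ℚ → GL₂(ℂ)` whose Frobenius traces `a_p` (outside a finite set)
satisfy `|a_p|² ≤ 4` and the sharp Rankin bound `Σ |a_p|² p^{-s} ≤ log (1/(s-1)) + C` is irreducible,
given the symmetric Chebotarev lower bound.

Proof: a common eigenvector gives characters `χ₁ = χ`, `χ₂ = det / χ` with `tr = χ₁ + χ₂`; on the
finite abelian group `H = range (χ, det)` the function `T = |χ₁ + χ₂|² = 2 + 2 Re(χ₁/χ₂)` is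
inverse-stable with mean `≥ 2`; Chebotarev on the level sets of `T` gives
`Σ |a_p|² p^{-s} ≥ (2 - δ) log (1/(s-1))`, contradicting the constant `1` of Rankin.
-/
import Mathlib
import Fermat.Agent.DS.Iface
import Fermat.Agent.DS.IfaceSym
import Fermat.Agent.DS.Irred.Alg
import Fermat.Agent.DS.Irred.Density
import Fermat.Agent.DS.Asm.FiniteRange

set_option autoImplicit false

open Matrix

namespace Fermat.Agent.DS.Irred.Main

open Fermat.Agent.DS.Iface Fermat.Agent.DS.IfaceSym Fermat.Agent.DS.Irred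

local notation "Γℚ" => (AlgebraicClosure ℚ ≃ₐ[ℚ] AlgebraicClosure ℚ)

/-- `χ₁ + χ₂` in terms of `(χ₁, det)`. -/
noncomputable def tval (h : ℂˣ × ℂˣ) : ℂ := (h.1 : ℂ) + (h.2 : ℂ) / (h.1 : ℂ)

/-- `|χ₁ + χ₂|²`. -/
noncomputable def Tval (h : ℂˣ × ℂˣ) : ℝ := ‖tval h‖ ^ 2

/-- `χ₁ / χ₂ = χ₁² / det`. -/
noncomputable def psi : ℂˣ × ℂˣ →* ℂˣ where
  toFun h := h.1 ^ 2 / h.2
  map_one' := by simp
  map_mul' a b := by
    simp only [Prod.fst_mul, Prod.snd_mul]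
    rw [mul_pow, div_mul_div_comm]

lemma conj_eq_inv_of_norm_one {z : ℂ} (hz : ‖z‖ = 1) : (starRingEnd ℂ) z = z⁻¹ := by
  have hz0 : z ≠ 0 := by
    intro h
    rw [h, norm_zero] at hz
    exact zero_ne_one hz
  apply eq_inv_of_mul_eq_one_left
  rw [mul_comm, Complex.mul_conj, Complex.normSq_eq_norm_sq, hz]
  norm_num

lemma norm_one_of_pow {z : ℂˣ} {n : ℕ} (hn : n ≠ 0) (h : z ^ n = 1) : ‖(z : ℂ)‖ = 1 := by
  apply Complex.norm_eq_one_of_pow_eq_one _ hn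
  rw [← Units.val_pow_eq_pow_val, h, Units.val_one]

section finiteOrder

variable {h : ℂˣ × ℂˣ} {n : ℕ}

lemma tval_inv (hn : n ≠ 0) (hh : h ^ n = 1) : tval h⁻¹ = (starRingEnd ℂ) (tval h) := by
  have h1 : ‖(h.1 : ℂ)‖ = 1 := norm_one_of_pow hn (by simpa using congrArg Prod.fst hh)
  have h2 : ‖(h.2 : ℂ)‖ = 1 := norm_one_of_pow hn (by simpa using congrArg Prod.snd hh)
  unfold tval
  rw [map_add, map_div₀, conj_eq_inv_of_norm_one h1, conj_eq_inv_of_norm_one h2]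
  simp

lemma Tval_inv (hn : n ≠ 0) (hh : h ^ n = 1) : Tval h⁻¹ = Tval h := by
  unfold Tval
  rw [tval_inv hn hh, RCLike.norm_conj]

lemma Tval_eq (hn : n ≠ 0) (hh : h ^ n = 1) : Tval h = 2 + 2 * ((psi h : ℂˣ) : ℂ).re := by
  have h1 : ‖(h.1 : ℂ)‖ = 1 := norm_one_of_pow hn (by simpa using congrArg Prod.fst hh)
  have h2 : ‖(h.2 : ℂ)‖ = 1 := norm_one_of_pow hn (by simpa using congrArg Prod.snd hh)
  have hx0 : (h.1 : ℂ) ≠ 0 := h.1.ne_zero
  have hd0 : (h.2 : ℂ) ≠ 0 := h.2.ne_zero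
  unfold Tval tval
  rw [← Complex.normSq_eq_norm_sq, Complex.normSq_add, Complex.normSq_eq_norm_sq,
    Complex.normSq_eq_norm_sq, norm_div, h1, h2, map_div₀, conj_eq_inv_of_norm_one h1,
    conj_eq_inv_of_norm_one h2]
  have : (h.1 : ℂ) * ((h.2 : ℂ)⁻¹ / (h.1 : ℂ)⁻¹) = ((psi h : ℂˣ) : ℂ) := by
    simp only [psi, MonoidHom.coe_mk, OneHom.coe_mk, Units.val_div_eq_div_val, Units.val_pow_eq_pow_val]
    field_simp
  rw [this]
  norm_num

lemma Tval_le_four (hn : n ≠ 0) (hh : h ^ n = 1) : Tval h ≤ 4 := by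
  have h1 : ‖(h.1 : ℂ)‖ = 1 := norm_one_of_pow hn (by simpa using congrArg Prod.fst hh)
  have h2 : ‖(h.2 : ℂ)‖ = 1 := norm_one_of_pow hn (by simpa using congrArg Prod.snd hh)
  unfold Tval tval
  have : ‖(h.1 : ℂ) + (h.2 : ℂ) / (h.1 : ℂ)‖ ≤ 2 := by
    refine (norm_add_le _ _).trans ?_
    rw [norm_div, h1, h2]
    norm_num
  nlinarith [norm_nonneg ((h.1 : ℂ) + (h.2 : ℂ) / (h.1 : ℂ))]

end finiteOrder

/-- The mean of `T` over a finite subgroup is at least `2`. -/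
theorem two_mul_card_le_sum (H : Subgroup (ℂˣ × ℂˣ)) [Fintype H] :
    2 * (Fintype.card H : ℝ) ≤ ∑ h : H, Tval (h : ℂˣ × ℂˣ) := by
  classical
  have hord : ∀ h : H, ((h : ℂˣ × ℂˣ)) ^ Fintype.card H = 1 := by
    intro h
    have h2 : ((h ^ Fintype.card H : H) : ℂˣ × ℂˣ) = ((1 : H) : ℂˣ × ℂˣ) :=
      congrArg Subtype.val (pow_card_eq_one (x := h))
    rwa [Subgroup.coe_pow, Subgroup.coe_one] at h2
  have hcard : Fintype.card H ≠ 0 := Fintype.card_ne_zero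
  have h1 : ∑ h : H, Tval (h : ℂˣ × ℂˣ) =
      2 * (Fintype.card H : ℝ) + 2 * (∑ h : H, ((psi (h : ℂˣ × ℂˣ) : ℂˣ) : ℂ)).re := by
    rw [Complex.re_sum, Finset.mul_sum]
    rw [Finset.sum_congr rfl fun h _ => Tval_eq hcard (hord h), Finset.sum_add_distrib]
    simp [mul_comm]
  rw [h1]
  -- the character sum is `0` or `|H|`
  let f : H →* ℂ := (Units.coeHom ℂ).comp (psi.comp H.subtype)
  have hsum : (∑ h : H, ((psi (h : ℂˣ × ℂˣ) : ℂˣ) : ℂ)) = ∑ h : H, f h := rfl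
  rw [hsum, sum_hom_units f]
  split_ifs
  · simp
  · simp

variable (hCheb : ChebotarevLowerSym)

include hCheb in
/-- **B7.** -/
theorem isIrreducible_of_rankin (ρ : Γℚ →* GL (Fin 2) ℂ)
    (hfl : GaloisFactorsThroughFiniteLevel ρ) (S : Finset ℕ) (a : ℕ → ℂ)
    (htr : ∀ p : ℕ, p.Prime → p ∉ S →
      ∀ A : ValuationSubring (AlgebraicClosure ℚ), A.LiesOverPrime p →
        ∀ σ : Γℚ, A.IsFrobeniusAt σ p →
          ((ρ σ : GL (Fin 2) ℂ) : Matrix (Fin 2) (Fin 2) ℂ).trace = a p)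
    (hbd : ∀ p : ℕ, p.Prime → p ∉ S → ‖a p‖ ^ 2 ≤ 4)
    (hR : ∃ C : ℝ, ∀ s : ℝ, 1 < s → s ≤ 2 →
      (∑' n : ℕ, Set.indicator {p : ℕ | p.Prime ∧ p ∉ S}
        (fun p : ℕ => ‖a p‖ ^ 2 * (p : ℝ) ^ (-s)) n) ≤ Real.log (1 / (s - 1)) + C) :
    (Deformation.matrixRepresentation ρ).IsIrreducible := by
  classical
  apply Alg.isIrreducible_of_no_common_eigenvector
  rintro ⟨v, hv, hcommon⟩
  obtain ⟨χ, hχ⟩ := Alg.exists_eigenChar ρ v hv hcommon
  let δ : Γℚ →* ℂˣ := Matrix.GeneralLinearGroup.det.comp ρ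
  let π : Γℚ →* ℂˣ × ℂˣ := χ.prod δ
  -- trace formula
  have htrace : ∀ σ : Γℚ,
      ((ρ σ : GL (Fin 2) ℂ) : Matrix (Fin 2) (Fin 2) ℂ).trace = tval (π σ) := by
    intro σ
    have h1 := Alg.char_eq_of_eigenvector _ v hv _ (hχ σ)
    have hc0 : ((χ σ : ℂˣ) : ℂ) ≠ 0 := (χ σ).ne_zero
    have hdet : ((δ σ : ℂˣ) : ℂ) = ((ρ σ : GL (Fin 2) ℂ) : Matrix (Fin 2) (Fin 2) ℂ).det := rfl
    change _ = ((χ σ : ℂˣ) : ℂ) + ((δ σ : ℂˣ) : ℂ) / ((χ σ : ℂˣ) : ℂ)
    rw [hdet]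
    have h2 : ((ρ σ : GL (Fin 2) ℂ) : Matrix (Fin 2) (Fin 2) ℂ).trace =
        (((χ σ : ℂˣ) : ℂ) * ((χ σ : ℂˣ) : ℂ) +
          ((ρ σ : GL (Fin 2) ℂ) : Matrix (Fin 2) (Fin 2) ℂ).det) / ((χ σ : ℂˣ) : ℂ) := by
      rw [eq_div_iff hc0]
      linear_combination (-1 : ℂ) * h1
    rw [h2, add_div, mul_div_assoc, div_self hc0, mul_one]
  -- finite level of `π`
  have hπfl : GaloisFactorsThroughFiniteLevel π := by
    obtain ⟨L, hL, hfix⟩ := hfl
    refine ⟨L, hL, fun σ hσ => ?_⟩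
    have h1 := hfix σ hσ
    have hχ1 : χ σ = 1 := by
      have h2 := hχ σ
      rw [h1, Units.val_one, Matrix.one_mulVec] at h2
      have h3 : ((1 : ℂ) - ((χ σ : ℂˣ) : ℂ)) • v = 0 := by rw [sub_smul, one_smul, ← h2, sub_self]
      rcases smul_eq_zero.mp h3 with h4 | h4
      · exact Units.ext (sub_eq_zero.mp h4).symm
      · exact absurd h4 hv
    have hδ1 : δ σ = 1 := by
      change Matrix.GeneralLinearGroup.det (ρ σ) = 1
      rw [h1, map_one]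
    exact Prod.ext hχ1 hδ1
  -- the finite group `H`
  let H : Subgroup (ℂˣ × ℂˣ) := π.range
  have hHfin : Finite H := by
    have := Fermat.Agent.DS.Asm.FiniteRange.finite_range π hπfl
    have h2 : (H : Set (ℂˣ × ℂˣ)) = Set.range π := MonoidHom.coe_range π
    exact (h2 ▸ this).to_subtype
  let _ : Fintype H := Fintype.ofFinite H
  let ρ' : Γℚ →* H := π.rangeRestrict
  have hρ'surj : Function.Surjective ρ' := π.rangeRestrict_surjective
  have hρ'fl : GaloisFactorsThroughFiniteLevel ρ' := by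
    obtain ⟨L, hL, hfix⟩ := hπfl
    exact ⟨L, hL, fun σ hσ => Subtype.ext (hfix σ hσ)⟩
  have hcard : Fintype.card H ≠ 0 := Fintype.card_ne_zero
  have hord : ∀ h : H, ((h : ℂˣ × ℂˣ)) ^ Fintype.card H = 1 := by
    intro h
    have h2 : ((h ^ Fintype.card H : H) : ℂˣ × ℂˣ) = ((1 : H) : ℂˣ × ℂˣ) :=
      congrArg Subtype.val (pow_card_eq_one (x := h))
    rwa [Subgroup.coe_pow, Subgroup.coe_one] at h2
  -- level sets
  let Tf : H → ℝ := fun h => Tval (h : ℂˣ × ℂˣ)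
  let V : Finset ℝ := Finset.univ.image Tf
  let Sv : ℝ → Set H := fun v => {h : H | Tf h = v}
  let X : ℝ → Set ℕ := fun v => {p : ℕ | ∃ (A : ValuationSubring (AlgebraicClosure ℚ)) (σ : Γℚ),
    A.LiesOverPrime p ∧ A.IsFrobeniusAt σ p ∧ ρ' σ ∈ Sv v}
  let d : ℝ → ℝ := fun v => (Nat.card (Sv v) : ℝ) / Nat.card H
  have hV0 : ∀ v ∈ V, 0 ≤ v := by
    intro v hv
    obtain ⟨h, -, rfl⟩ := Finset.mem_image.mp hv
    exact sq_nonneg _
  have hdens : ∀ v ∈ V, LowerDensityGE (X v) (d v) := by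
    intro v _
    refine hCheb H ρ' hρ'fl hρ'surj (Sv v) fun g hg => ?_
    change Tf g⁻¹ = v
    rw [← hg]
    exact Tval_inv hcard (hord g)
  let w : ℕ → ℝ := fun p => if p.Prime ∧ p ∉ S then ‖a p‖ ^ 2 else 0
  have hw0 : ∀ p, 0 ≤ w p := by
    intro p
    change 0 ≤ (if p.Prime ∧ p ∉ S then ‖a p‖ ^ 2 else 0)
    split_ifs
    · exact sq_nonneg _
    · exact le_refl _
  have hwW : ∀ p, w p ≤ 4 := by
    intro p
    change (if p.Prime ∧ p ∉ S then ‖a p‖ ^ 2 else 0) ≤ 4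
    split_ifs with h
    · exact hbd p h.1 h.2
    · norm_num
  have hval : ∀ p : ℕ, p.Prime → p ∉ S → ∀ v ∈ V, p ∈ X v → w p = v := by
    intro p hp hpS v _ hpX
    obtain ⟨A, σ, hA, hσ, hmem⟩ := hpX
    change (if p.Prime ∧ p ∉ S then ‖a p‖ ^ 2 else 0) = v
    rw [if_pos ⟨hp, hpS⟩, ← htr p hp hpS A hA σ hσ, htrace σ]
    exact hmem
  have hrankin : ∃ C : ℝ, ∀ s : ℝ, 1 < s → s ≤ 2 →
      (∑' n : ℕ, Set.indicator {p : ℕ | p.Prime ∧ p ∉ S}
        (fun p => w p * Density.gw s p) n) ≤ Real.log (1 / (s - 1)) + C := by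
    obtain ⟨C, hC⟩ := hR
    refine ⟨C, fun s hs hs2 => ?_⟩
    have heq : Set.indicator {p : ℕ | p.Prime ∧ p ∉ S} (fun p => w p * Density.gw s p) =
        Set.indicator {p : ℕ | p.Prime ∧ p ∉ S} (fun p : ℕ => ‖a p‖ ^ 2 * (p : ℝ) ^ (-s)) := by
      funext n
      by_cases hn : n ∈ {p : ℕ | p.Prime ∧ p ∉ S}
      · rw [Set.indicator_of_mem hn, Set.indicator_of_mem hn]
        change (if n.Prime ∧ n ∉ S then ‖a n‖ ^ 2 else 0) * _ = _
        rw [if_pos (show n.Prime ∧ n ∉ S from hn)]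
        rfl
      · rw [Set.indicator_of_notMem hn, Set.indicator_of_notMem hn]
    rw [heq]
    exact hC s hs hs2
  have hle := Density.sum_mul_density_le_one V hV0 X d hdens S w 4 hw0 hwW hval hrankin
  -- but the mean of `T` is at least `2`
  have hmean : (2 : ℝ) ≤ ∑ v ∈ V, v * d v := by
    have h1 : ∑ h : H, Tf h = ∑ v ∈ V, ((Finset.univ.filter fun h : H => Tf h = v).card : ℝ) * v := by
      have := Finset.sum_comp (s := (Finset.univ : Finset H)) (f := fun v : ℝ => v) (g := Tf)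
      rw [this]
      refine Finset.sum_congr rfl fun v _ => ?_
      rw [nsmul_eq_mul]
    have h2 : ∀ v ∈ V, v * d v =
        (((Finset.univ.filter fun h : H => Tf h = v).card : ℝ) * v) / Fintype.card H := by
      intro v _
      change v * ((Nat.card (Sv v) : ℝ) / Nat.card H) = _
      have hc1 : Nat.card (Sv v) = (Finset.univ.filter fun h : H => Tf h = v).card := by
        rw [Nat.card_eq_fintype_card, Fintype.card_subtype]
        rfl
      rw [hc1, Nat.card_eq_fintype_card]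
      ring
    rw [Finset.sum_congr rfl h2, ← Finset.sum_div, ← h1]
    have hpos : (0 : ℝ) < Fintype.card H := by
      have : 0 < Fintype.card H := Fintype.card_pos
      exact_mod_cast this
    rw [le_div_iff₀ hpos]
    exact two_mul_card_le_sum H
  linarith

end Fermat.Agent.DS.Irred.Main
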